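import Mathlib
import Fermat.Agent.MU.S36.Ig.EpsGen
import Fermat.Agent.Lib.GaussInt.Basic
import Fermat.Agent.Lib.RR.Defs

section MergeWrap_S48_W_G_Red_Defs -- from S48/W/G/Red/Defs.lean

set_option autoImplicit false
set_option synthInstance.maxHeartbeats 400000

noncomputable section

namespace Fermat.Agent.S48WG

open ModularCurve AlgebraicCurve IntermediateField Fermat.Agent.GaussInt Fermat.Agent.RR

local notation "Kb" => AlgebraicClosure ℚ

variable (A : ValuationSubring Kb) (F₀ : IntermediateField ℚ (LaurentSeries ℚ))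

/-- the residues of the elements of the Gauss ring of `F = ℚ̄ F₀`. -/
def resSet : Set (LaurentSeries (IsLocalRing.ResidueField A)) :=
  {y | ∃ f ∈ gaussSub A (laurentBaseChange Kb F₀), gaussResFun A (laurentBaseChange Kb F₀) f = y}

/-- **the residue field of the Gauss valuation** of `F = ℚ̄ F₀`, a subfield of `k((q))`. -/
def resField : IntermediateField (IsLocalRing.ResidueField A)
    (LaurentSeries (IsLocalRing.ResidueField A)) :=
  IntermediateField.adjoin (IsLocalRing.ResidueField A) (resSet A F₀)

variable {A F₀}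

/-- an element of the Gauss ring, as an element of `F`. -/
def barElt {x : LaurentSeries Kb} (hx : x ∈ gaussSub A (laurentBaseChange Kb F₀)) :
    ↥(laurentBaseChange Kb F₀) :=
  ⟨x, mem_of_mem_gaussSub hx⟩

/-- the residue of an element of the Gauss ring, as an element of the residue field. -/
def resElt {x : LaurentSeries Kb} (hx : x ∈ gaussSub A (laurentBaseChange Kb F₀)) :
    ↥(resField A F₀) :=
  ⟨gaussResFun A (laurentBaseChange Kb F₀) x,
    IntermediateField.subset_adjoin _ _ ⟨x, hx, rfl⟩⟩

variable (A F₀)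

/-- (G-RES) every element of the residue field is the residue of an element of the Gauss ring. -/
def ResSurj : Prop :=
  ∀ y ∈ resField A F₀, ∃ f ∈ gaussSub A (laurentBaseChange Kb F₀),
    gaussResFun A (laurentBaseChange Kb F₀) f = y

/-- the degree data of a base function `x` of the Gauss ring: `x` and `x̄` transcendental,
`F / ℚ̄(x)` finite, `F_k / k(x̄)` finite and separable, `[F : ℚ̄(x)] ≤ [F_k : k(x̄)]`. -/
def IsBaseFun {x : LaurentSeries Kb} (hx : x ∈ gaussSub A (laurentBaseChange Kb F₀)) : Prop :=
  Transcendental Kb (barElt hx) ∧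
  FiniteDimensional Kb⟮barElt hx⟯ ↥(laurentBaseChange Kb F₀) ∧
  Transcendental (IsLocalRing.ResidueField A) (resElt hx) ∧
  FiniteDimensional (IsLocalRing.ResidueField A)⟮resElt hx⟯ ↥(resField A F₀) ∧
  Algebra.IsSeparable (IsLocalRing.ResidueField A)⟮resElt hx⟯ ↥(resField A F₀) ∧
  Module.finrank Kb⟮barElt hx⟯ ↥(laurentBaseChange Kb F₀) ≤
    Module.finrank (IsLocalRing.ResidueField A)⟮resElt hx⟯ ↥(resField A F₀)

/-- **THE INTERFACE G-RED → G-PORT** (good reduction input of the KEY LEMMA at `A`):
Riemann-Roch packages, genus equality, and a base function with its degree data. -/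
def RedInput : Prop :=
  IsRRField Kb ↥(laurentBaseChange Kb F₀) ∧
  IsRRField (IsLocalRing.ResidueField A) ↥(resField A F₀) ∧
  ResSurj A F₀ ∧
  genusFF Kb ↥(laurentBaseChange Kb F₀) =
    genusFF (IsLocalRing.ResidueField A) ↥(resField A F₀) ∧
  ∃ (x : LaurentSeries Kb) (hx : x ∈ gaussSub A (laurentBaseChange Kb F₀)), IsBaseFun A F₀ hx

/-- **deliverable of G-RED**: the good reduction input at every place over a prime `p ∤ M`. -/
def GoodRedOne (M : ℕ) [NeZero M] : Prop :=
  ∀ (p : ℕ), p.Prime → ¬ p ∣ M → ∀ A : ValuationSubring Kb, A.LiesOverPrime p →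
    RedInput A (Fermat.Agent.S48W.FOne M)

end Fermat.Agent.S48WG
end
end MergeWrap_S48_W_G_Red_Defs
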