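import Mathlib
import Fermat.Agent.MU.S36.Ig.EpsGen
import Fermat.Agent.Lib.GaussInt.ValGroup

section MergeWrap_S48_W_G_Red_Int -- from S48/W/G/Red/Int.lean

set_option autoImplicit false
set_option linter.style.haveILetI false

noncomputable section

namespace Fermat.Agent.S48W

open ModularCurve HahnSeries IntermediateField Fermat.Agent.GaussInt

variable {K : Type*} [Field K] [Algebra ℚ K] (A : ValuationSubring K)

/-- a power series with integer coefficients is integral at every `A`. -/
theorem isIntQ_ofPowerSeries_intCast (f : PowerSeries ℤ) :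
    IsIntQ A (HahnSeries.ofPowerSeries ℤ ℚ (f.map (Int.castRingHom ℚ))) := by
  intro n
  have h : (HahnSeries.ofPowerSeries ℤ ℚ (f.map (Int.castRingHom ℚ))).coeff n
      = if n < 0 then 0 else PowerSeries.coeff n.natAbs (f.map (Int.castRingHom ℚ)) :=
    PowerSeries.coeff_coe (f.map (Int.castRingHom ℚ)) n
  rw [h]
  split_ifs
  · rw [map_zero]
    exact A.zero_mem
  · rw [PowerSeries.coeff_map, eq_intCast, map_intCast]
    exact intCast_mem A _

/-- `q^n` is integral. -/
theorem isIntQ_single_one (n : ℤ) : IsIntQ A (HahnSeries.single n (1 : ℚ)) := by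
  have := isIntQ_intCast_single (A := A) (1 : ℤ) n
  simpa using this

theorem isIntQ_eisQuot : IsIntQ A eisQuot :=
  (isIntQ_single_one A (-1)).mul (isIntQ_ofPowerSeries_intCast A _)

/-- the Fricke functions have integral `q`-expansions. -/
theorem isIntQ_fricke (M : ℕ) [NeZero M] (a : ZMod M) : IsIntQ A (fricke M a) :=
  (isIntQ_qExpand (A := A) M (isIntQ_eisQuot A)).mul (isIntQ_ofPowerSeries_intCast A _)

theorem isIntQ_of_mem_genOne (M : ℕ) [NeZero M] {g : LaurentSeries ℚ} (hg : g ∈ genOne M) :
    IsIntQ A g := by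
  rcases hg with ⟨d, hd, -, rfl⟩ | ⟨a, -, rfl⟩
  · exact isIntQ_qExpand (A := A) d (isIntQ_jq (A := A))
  · exact isIntQ_fricke A M a

/-- **G-INT**: `FOne M` is generated by integral series. -/
theorem isIntGen_FOne (M : ℕ) [NeZero M] : IsIntGen A (FOne M) :=
  isIntGen_adjoin (A := A) _ fun _ hg => isIntQ_of_mem_genOne A M hg

/-- `FOneP M p` is generated by the generators of `FOne M` and their images under `q ↦ q^p`. -/
theorem FOneP_eq_adjoin (M p : ℕ) [NeZero M] [NeZero p] :
    FOneP M p = IntermediateField.adjoin ℚ (genOne M ∪ qExpand ℚ p '' genOne M) := by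
  apply le_antisymm
  · unfold FOneP
    rw [IntermediateField.adjoin_le_iff]
    rintro x (hx | ⟨y, hy, rfl⟩)
    · exact IntermediateField.adjoin.mono ℚ _ _ Set.subset_union_left hx
    · have h1 : qExpand ℚ p y ∈ (FOne M).map (qExpandₐ p) := ⟨y, hy, rfl⟩
      unfold FOne at h1
      rw [IntermediateField.adjoin_map] at h1
      exact IntermediateField.adjoin.mono ℚ _ _ Set.subset_union_right h1
  · rw [IntermediateField.adjoin_le_iff]
    rintro x (hx | ⟨y, hy, rfl⟩)
    · exact FOne_le_FOneP M p (IntermediateField.subset_adjoin ℚ _ hx)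
    · exact qExpand_mem_FOneP M p (IntermediateField.subset_adjoin ℚ _ hy)

/-- **G-INT**: `FOneP M p` is generated by integral series. -/
theorem isIntGen_FOneP (M p : ℕ) [NeZero M] [NeZero p] : IsIntGen A (FOneP M p) := by
  rw [FOneP_eq_adjoin]
  refine isIntGen_adjoin (A := A) _ ?_
  rintro g (hg | ⟨y, hy, rfl⟩)
  · exact isIntQ_of_mem_genOne A M hg
  · exact isIntQ_qExpand (A := A) p (isIntQ_of_mem_genOne A M hy)

end Fermat.Agent.S48W
end
end MergeWrap_S48_W_G_Red_Int
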