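import Mathlib
import Fermat.Agent.MU.S48.W.G.Red.Defs
import Fermat.Agent.MU.S48.W.G.Red.Model
import Fermat.Agent.MU.Lib.GoodRed.Final
import Fermat.Agent.MU.Lib.GoodRed.Genus
import Fermat.Agent.MU.Lib.GaussInt.ModularInst
import Fermat.Agent.MU.Lib.Deuring.FundIneq
import Fermat.Agent.Lib.FrobTrace.Residue
import Fermat.Agent.MU.S48.W.G.Red.Igusa.DatDefs
import Fermat.Agent.MU.S48.W.G.Red.Fund
import Fermat.Agent.MU.S48.W.G.Red.Res
import Fermat.Agent.MU.S48.W.G.Red.Int
import Fermat.Agent.MU.Lib.GoodRed.ModularData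

section MergeWrap_S48_W_G_Red_Genus -- from S48/W/G/Red/Genus.lean

set_option autoImplicit false
set_option linter.unusedSectionVars false
set_option linter.style.haveILetI false
set_option synthInstance.maxHeartbeats 400000

noncomputable section

namespace Fermat.Agent.S48WG

open ModularCurve AlgebraicCurve IntermediateField Fermat.Agent.GaussInt Fermat.Agent.RR
  Fermat.Agent.GoodRed

/-! ### abstract form -/

section Abstract

variable {K k F Fk : Type} [Field K] [Field k] [Field F] [Field Fk] [Algebra K F] [Algebra k Fk]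

/-- **`g(F) ≤ g(Fk)`** from degree and branch data (discriminant chain in both charts and
Riemann-Hurwitz). -/
theorem genusFF_le_of_branchData [IsAlgClosed K] [CharZero K] [IsAlgClosed k]
    (M : RedModel K k F Fk) (n : ℕ) (hdeg : DegData M n) (BD : BranchData M n)
    (hS : ∀ c ∈ BD.S, c ≠ 0 → c⁻¹ ∈ M.A)
    (hK : IsRRField K F) (hk : IsRRField k Fk) :
    genusFF K F ≤ genusFF k Fk :=
  genusFF_le_of_fibreBound M n hdeg BD hK hk
    (discChain K k F Fk M n hdeg BD).2
    (FibreBound.at_infty (fibreBound_inv M n hdeg BD hS))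

/-- **genus equality** for an abstract reduction datum. -/
theorem genusFF_eq_of_redModel [IsAlgClosed K] [CharZero K] [IsAlgClosed k] [Infinite k]
    (M : RedModel K k F Fk) (n : ℕ) (hdeg : DegData M n) (BD : BranchData M n)
    (hS : ∀ c ∈ BD.S, c ≠ 0 → c⁻¹ ∈ M.A)
    (V : Fermat.Agent.Deuring.ValSetup K F k Fk) (hV : Fermat.Agent.Deuring.HasLattice V) :
    genusFF K F = genusFF k Fk :=
  le_antisymm (genusFF_le_of_branchData M n hdeg BD hS V.hF V.hFk)
    (Fermat.Agent.Deuring.genusFF_le V hV)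

end Abstract

/-! ### the Gauss valuation of `F = ℚ̄ F₀` -/

local notation "Kb" => AlgebraicClosure ℚ

variable {A : ValuationSubring Kb} {F₀ : IntermediateField ℚ (LaurentSeries ℚ)} {ℓ : ℕ}

/-- **(G-GENUS)** the generic genus equality: base function + fundamental inequality + branch
data `⟹` `g(F) = g(Fk)`. -/
theorem genusFF_eq_of_branch (hℓ : ℓ.Prime) (hA : A.LiesOverPrime ℓ) (hint : IsIntGen A F₀)
    (hsurj : ResSurj A F₀)
    (hF : IsRRField Kb ↥(laurentBaseChange Kb F₀))
    (hFk : IsRRField (IsLocalRing.ResidueField A) ↥(resField A F₀))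
    {x : LaurentSeries Kb} (hx : x ∈ gaussSub A (laurentBaseChange Kb F₀))
    (hbase : IsBaseFun A F₀ hx)
    (hfund : Module.finrank (IsLocalRing.ResidueField A)⟮resElt hx⟯ ↥(resField A F₀) ≤
      Module.finrank Kb⟮barElt hx⟯ ↥(laurentBaseChange Kb F₀))
    (S : Finset Kb) (hSA : ∀ c ∈ S, c ∈ A)
    (hSinj : ∀ c ∈ S, ∀ c' ∈ S, ∀ (hc : c ∈ A) (hc' : c' ∈ A),
      IsLocalRing.residue A ⟨c, hc⟩ = IsLocalRing.residue A ⟨c', hc'⟩ → c = c')
    (hSunit : ∀ c ∈ S, c ≠ 0 → c⁻¹ ∈ A)
    (hunram : ∀ c : Kb, c ∉ S → fibreCard Kb (barElt hx) c =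
      Module.finrank Kb⟮barElt hx⟯ ↥(laurentBaseChange Kb F₀)) :
    genusFF Kb ↥(laurentBaseChange Kb F₀) =
      genusFF (IsLocalRing.ResidueField A) ↥(resField A F₀) := by
  haveI : IsAlgClosed (IsLocalRing.ResidueField A) :=
    Fermat.Agent.FrobTrace.isAlgClosed_residueField A
  haveI : Infinite (IsLocalRing.ResidueField A) := IsAlgClosed.instInfinite
  obtain ⟨-, hfd, hxt, hfdk, hsep, hle⟩ := hbase
  have h : GaussHyp A F₀ ℓ := ⟨hℓ, hA, hint⟩
  have hdeg : DegData (redModel h hsurj hx hxt)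
      (Module.finrank Kb⟮barElt hx⟯ ↥(laurentBaseChange Kb F₀)) :=
    { deg := rfl
      degk := le_antisymm hfund hle
      sepk := hsep
      pos := Module.finrank_pos }
  let BD : BranchData (redModel h hsurj hx hxt)
      (Module.finrank Kb⟮barElt hx⟯ ↥(laurentBaseChange Kb F₀)) :=
    { S := S
      S_mem := hSA
      S_inj := hSinj
      unram := hunram }
  exact genusFF_eq_of_redModel (redModel h hsurj hx hxt) _ hdeg BD hSunit
    (redValSetup h hsurj hF hFk) (hasLattice_redValSetup h hsurj hF hFk)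

end Fermat.Agent.S48WG
end
end MergeWrap_S48_W_G_Red_Genus

section MergeWrap_S48_W_G_Red_Asm5 -- from S48/W/G/Red/Asm5.lean

set_option autoImplicit false
set_option linter.unusedSectionVars false
set_option linter.style.haveILetI false
set_option synthInstance.maxHeartbeats 400000

noncomputable section

namespace Fermat.Agent.S48WG

open ModularCurve AlgebraicCurve IntermediateField Fermat.Agent.GaussInt Fermat.Agent.RR
  Fermat.Agent.GoodRed Fermat.Agent.S48W

local notation "Kb" => AlgebraicClosure ℚ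

/-- the nonzero branch values `0, 1728` are units at a place over `ℓ ∉ {2, 3}`. -/
theorem asm5_inv_mem_branchSet {ℓ : ℕ} (hℓ : ℓ.Prime) {A : ValuationSubring Kb}
    (hA : A.LiesOverPrime ℓ) (h2 : ℓ ≠ 2) (h3 : ℓ ≠ 3) :
    ∀ c ∈ branchSet, c ≠ 0 → c⁻¹ ∈ A := by
  intro c hc h0
  rcases mem_branchSet.mp hc with rfl | rfl
  · exact absurd rfl h0
  · obtain ⟨u, hu⟩ := isUnit_1728 hℓ hA h2 h3
    have h1 : (((u⁻¹ : Aˣ) : A) : Kb) = (1728 : Kb)⁻¹ := by
      have h2 : ((u : A) : Kb) * (((u⁻¹ : Aˣ) : A) : Kb) = 1 :=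
        congrArg (Subtype.val : A → Kb) (u.mul_inv)
      rw [hu] at h2
      have h3 : (((1728 : ℕ) : A) : Kb) = 1728 := by
        show ((1728 : ℕ) : Kb) = 1728
        norm_num
      rw [h3] at h2
      exact eq_inv_of_mul_eq_one_right h2
    rw [← h1]
    exact ((u⁻¹ : Aˣ) : A).2

theorem asm5_mem_branchSet {A : ValuationSubring Kb} : ∀ c ∈ branchSet, c ∈ A := by
  intro c hc
  rcases mem_branchSet.mp hc with rfl | rfl
  · exact A.zero_mem
  · have h := (((1728 : ℕ) : A)).2
    have e : ((((1728 : ℕ) : A)) : Kb) = 1728 := by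
      show ((1728 : ℕ) : Kb) = 1728
      norm_num
    rw [e] at h
    exact h

/-- **(G-ASM), generic form**: the good reduction input from a base function with branch values
in `{0, 1728}`, at a place over `ℓ ≥ 5`. -/
theorem redInput_of_baseFun {A : ValuationSubring Kb}
    {F₀ : IntermediateField ℚ (LaurentSeries ℚ)} {ℓ : ℕ} (hℓ : ℓ.Prime) (h5 : 5 ≤ ℓ)
    (hA : A.LiesOverPrime ℓ) (hint : IsIntGen A F₀)
    {x : LaurentSeries Kb} (hx : x ∈ gaussSub A (laurentBaseChange Kb F₀))
    (hbase : IsBaseFun A F₀ hx)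
    (hbranch : ∀ c : Kb, c ≠ 0 → c ≠ 1728 →
      fibreCard Kb (barElt hx) c = Module.finrank Kb⟮barElt hx⟯ ↥(laurentBaseChange Kb F₀)) :
    RedInput A F₀ := by
  have h2 : ℓ ≠ 2 := by omega
  have h3 : ℓ ≠ 3 := by omega
  have hsurj : ResSurj A F₀ := resSurj A F₀
  have hbase' := hbase
  obtain ⟨htr, hfd, htrk, hfdk, hsepk, hle⟩ := hbase
  have hF : IsRRField Kb ↥(laurentBaseChange Kb F₀) := isRRField_of_charZero ⟨htr, hfd⟩
  have hFk : IsRRField (IsLocalRing.ResidueField A) ↥(resField A F₀) :=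
    isRRField_of_resElt hx htrk hfdk hsepk
  have h : GaussHyp A F₀ ℓ := redHyp hℓ hA hint
  have hfund := (fund_of_barElt hx (redModel h hsurj hx htrk) rfl rfl hfd).2
  refine ⟨hF, hFk, hsurj, ?_, x, hx, hbase'⟩
  refine genusFF_eq_of_branch hℓ hA hint hsurj hF hFk hx hbase' hfund branchSet
    asm5_mem_branchSet (residue_inj_branchSet hℓ hA h2 h3)
    (asm5_inv_mem_branchSet hℓ hA h2 h3) ?_
  intro c hc
  rw [mem_branchSet, not_or] at hc
  exact hbranch c hc.1 hc.2

/-- **(G-ASM)** the assembly of G-RED at `p ≥ 5`. -/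
theorem gAsmFive : GAsmFiveStatement := by
  intro hIg hBr M _ hM p hp h5 hpM A hA
  obtain ⟨x, hx, hxe, hbase⟩ := hIg M hM p hp hpM A hA
  exact redInput_of_baseFun hp h5 hA (isIntGen_FOne A M) hx hbase
    (fun c hc0 hc => hBr M hM (barElt hx) hxe c hc0 hc)

end Fermat.Agent.S48WG
end
end MergeWrap_S48_W_G_Red_Asm5
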